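import Fermat.Agent.Arith.CyclotomicCharacter
import Fermat.Agent.EC.Rep.Tate.DetCyclotomic

/-!
# The cyclotomic character modulo powers of two

It is surjective on every inertia group over `2`, and it is the determinant of the Tate module.
-/

set_option autoImplicit false

noncomputable section

namespace Fermat.Agent.LT.Curve

open Fermat.Agent.Arith
open scoped Pointwise

/-- The character modulo `2 ^ M`, as an integer. -/
def cycInt (M : ℕ) (σ : GQ) : ℤ := ((cyclotomicHom (2 ^ M) σ : ZMod (2 ^ M)).val : ℤ)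

/-- The integer representative of the cyclotomic character reduces to the character. -/
theorem intCast_cycInt (M : ℕ) (σ : GQ) :
    ((cycInt M σ : ℤ) : ZMod (2 ^ M)) = (cyclotomicHom (2 ^ M) σ : ZMod (2 ^ M)) := by
  have : NeZero (2 ^ M) := ⟨pow_ne_zero M two_ne_zero⟩
  rw [cycInt, Int.cast_natCast, ZMod.natCast_zmod_val]

/-- A Frobenius at an odd prime `l` has cyclotomic character `l`. -/
theorem cyclotomicHom_two_pow_frobenius {M l : ℕ} (hl : l.Prime) (hl2 : l ≠ 2)
    {A : ValuationSubring QBar} (hA : A.LiesOverPrime l) {σ : GQ} (hσ : A.IsFrobeniusAt σ l) :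
    (cyclotomicHom (2 ^ M) σ : ZMod (2 ^ M)) = l :=
  cyclotomicHom_frobenius hA hl hσ
    fun h => hl2 ((Nat.prime_dvd_prime_iff_eq hl Nat.prime_two).mp (hl.dvd_of_dvd_pow h))

/-- Inertia at an odd prime has trivial cyclotomic character. -/
theorem cyclotomicHom_two_pow_inertia {M q : ℕ} (hq : q.Prime) (hq2 : q ≠ 2)
    {A : ValuationSubring QBar} (hA : A.LiesOverPrime q) {σ : GQ}
    (hσ : σ ∈ A.inertiaSubgroupIn ℚ) : cyclotomicHom (2 ^ M) σ = 1 :=
  cyclotomicHom_inertia hA hq hσ
    fun h => hq2 ((Nat.prime_dvd_prime_iff_eq hq Nat.prime_two).mp (hq.dvd_of_dvd_pow h))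

/-- The character is surjective on every inertia group over `2`. -/
theorem exists_inertia_cyclotomicHom_two_pow_eq {M : ℕ} {A : ValuationSubring QBar}
    (hA : A.LiesOverPrime 2) (a : (ZMod (2 ^ M))ˣ) :
    ∃ σ ∈ A.inertiaSubgroupIn ℚ, cyclotomicHom (2 ^ M) σ = a :=
  exists_mem_inertia_cyclotomicHom_eq_of_forall hA
    (fun _ hq h => (Nat.prime_dvd_prime_iff_eq hq Nat.prime_two).mp (hq.dvd_of_dvd_pow h)) a

variable {W : WeierstrassCurve ℤ} (hΔ : W.Δ ≠ 0)

open Fermat.Agent.EC.Rep in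
/-- The determinant of the Tate module is the cyclotomic character. -/
theorem det_tateRep_eq_cyclotomicHom (M : ℕ) (σ : GQ) :
    PadicInt.toZModPow M (LinearMap.det ((tateRep W 2 hΔ).ρ σ)) =
      (cyclotomicHom (2 ^ M) σ : ZMod (2 ^ M)) := by
  have : NeZero (2 ^ M) := ⟨pow_ne_zero M two_ne_zero⟩
  have h := (detIsCyclotomic_tateRep (p := 2) hΔ).2 M σ
    ((cyclotomicHom (2 ^ M) σ : ZMod (2 ^ M)).val) fun μ hμ => apply_root_eq_pow_cyclotomicHom σ hμ
  rw [Nat.cast_pow, ← PadicInt.ker_toZModPow, RingHom.mem_ker, map_sub, map_natCast,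
    ZMod.natCast_zmod_val, sub_eq_zero] at h
  exact h

end Fermat.Agent.LT.Curve
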