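import Fermat.Agent.LT.Curve.Residual
import Fermat.Agent.LT.Selmer.LocalTwo

/-!
# The data of a curve with multiplicative reduction and odd valuation at every bad prime

`Good` collects the hypotheses on the curve; it supplies the residual data and lift of `LT/Selmer`,
the sign, and at every bad prime an inertia element with the ordinary structure modulo every power
of two.
-/

set_option autoImplicit false

noncomputable section

open WeierstrassCurve Matrix

namespace Fermat.Agent.LT.Curve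

open Fermat.Agent.EC.Rep
open Fermat.Agent.Arith (QBar GQ cyclotomicHom cyclotomicHom_surjective
  apply_root_eq_pow_cyclotomicHom)
open Fermat.Agent.LT.Deform (M2 w₀ LineAt OrdAt)
open Fermat.Agent.LT.Selmer (LocConst dec IsTransp ch Residual Lift)
open Fermat.Agent.CFT.Flat (inG decG)

/-- The hypotheses on the switched curve. -/
structure Good (W : WeierstrassCurve ℤ) : Prop where
  /-- The discriminant is negative. -/
  neg : W.Δ < 0
  /-- The model is semistable. -/
  semistable : W.IsSemistableModel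
  /-- The curve has bad reduction at `2`. -/
  two_dvd : (2 : ℤ) ∣ W.Δ
  /-- The valuation of `Δ` at every bad prime is odd. -/
  odd_val : ∀ v : ℕ, v.Prime → (v : ℤ) ∣ W.Δ → Odd (padicValInt v W.Δ)
  /-- There is no rational point of order `2`. -/
  no_root : ∀ x : ℚ, 4 * x ^ 3 + (W.b₂ : ℚ) * x ^ 2 + 2 * (W.b₄ : ℚ) * x + (W.b₆ : ℚ) ≠ 0

variable {W : WeierstrassCurve ℤ}

/-- A curve satisfying `Good` has nonzero discriminant. -/
theorem Good.ne_zero (h : Good W) : W.Δ ≠ 0 := h.neg.ne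

/-- The bad primes. -/
def badSet (W : WeierstrassCurve ℤ) : Finset ℕ := W.Δ.natAbs.primeFactors

/-- The bad set consists of the primes dividing the discriminant. -/
theorem mem_badSet (hΔ : W.Δ ≠ 0) {v : ℕ} : v ∈ badSet W ↔ v.Prime ∧ (v : ℤ) ∣ W.Δ := by
  rw [badSet, Nat.mem_primeFactors, Int.natCast_dvd]
  simp [hΔ]

theorem not_dvd_c₄ (h : Good W) {v : ℕ} (hv : v ∈ badSet W) : ¬ (v : ℤ) ∣ W.c₄ :=
  h.semistable v ((mem_badSet h.ne_zero).mp hv).1 ((mem_badSet h.ne_zero).mp hv).2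

theorem ch_five_inertia {g : GQ} (hg : g ∈ inG 2) : ch 5 g = 0 := by
  open CFT.Flat in
  set x := Selmer.rt ((5 : ℤ) : QBar) with hx
  have hx2 : x ^ 2 = 5 := by rw [hx, Selmer.rt_sq]; norm_num
  set y := (1 + x) / 2 with hy
  have hrel : y ^ 2 - y = 1 := by rw [hy]; linear_combination hx2 / 4
  have hyint : IsIntegral ℤ y := ⟨Polynomial.X ^ 2 - Polynomial.X - 1, by monicity!, by
    simp only [Polynomial.eval₂_sub, Polynomial.eval₂_pow, Polynomial.eval₂_X,
      Polynomial.eval₂_one]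
    linear_combination hrel⟩
  have hy1 : nrm 2 y ≤ 1 := nrm_le_one_of_isIntegral 2 hyint
  refine Selmer.ch_eq_zero (by norm_num) ?_
  show g x = x
  have e : (g y) ^ 2 - g y = y ^ 2 - y := by rw [← map_pow, ← map_sub, hrel, map_one]
  have : (g y - y) * (g y - (1 - y)) = 0 := by linear_combination e
  rcases mul_eq_zero.mp this with h | h
  · rw [show x = y + y - 1 by rw [hy]; ring, map_sub, map_add, map_one, sub_eq_zero.mp h]
  exfalso
  have hlt := nrm_sub_lt_one_of_mem_inG 2 hg hy1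
  rw [sub_eq_zero.mp h, show (1 - y) - y = -x by rw [hy]; ring, nrm_neg] at hlt
  have h5 : nrm 2 x ^ 2 = 1 := by
    rw [← nrm_pow, hx2]
    have := nrm_natCast_eq_one 2 (n := 5) (by norm_num)
    simpa using this
  nlinarith [nrm_nonneg 2 x]

/-- Inertia elements at `2` acting on eighth roots of unity by `ζ ↦ ζ ^ 5` move the square root of a
number of odd valuation. -/
theorem eta_eq_one_of_cyc (h : Good W) {τ : GQ} (hτ : τ ∈ inG 2)
    (h5 : (cyclotomicHom (2 ^ 3) τ : ZMod (2 ^ 3)) = 5) : eta W h.ne_zero τ = 1 := by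
  obtain ⟨ζ, hζ⟩ : ∃ ζ : QBar, IsPrimitiveRoot ζ 8 :=
    HasEnoughRootsOfUnity.exists_primitiveRoot QBar 8
  have h8 : ζ ^ 8 = 1 := hζ.pow_eq_one
  have h4 : ζ ^ 4 = -1 := by
    have : (ζ ^ 4 - 1) * (ζ ^ 4 + 1) = 0 := by linear_combination h8
    rcases mul_eq_zero.mp this with e | e
    · exact absurd (sub_eq_zero.mp e) (hζ.pow_ne_one_of_pos_of_lt (by norm_num) (by norm_num))
    · exact eq_neg_of_add_eq_zero_left e
  have hg : τ ζ = ζ ^ 5 := by
    rw [apply_root_eq_pow_cyclotomicHom (n := 2 ^ 3) τ (by norm_num; exact h8), h5]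
    rfl
  have hm1 : ch (-1) τ = 0 := by
    refine Selmer.ch_eq_of_sq (by norm_num) (x := ζ ^ 2) ?_ ?_
    · rw [← pow_mul, h4]; norm_num
    · rw [Selmer.pm_zero, one_mul, map_pow, hg, ← pow_mul, show 5 * 2 = 8 + 2 from rfl, pow_add,
        h8, one_mul]
  have h2 : ch 2 τ = 1 := by
    refine Selmer.ch_eq_of_sq (by norm_num) (x := ζ + ζ ^ 7) ?_ ?_
    · push_cast
      linear_combination (ζ ^ 6 + 2) * h8 + ζ ^ 2 * h4
    · rw [Selmer.pm_one, map_add, map_pow, hg]
      linear_combination (ζ ^ 3 + ζ ^ 11 + ζ ^ 19 + ζ ^ 27) * h8 + ζ * h4 + ζ ^ 3 * h4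
  have hu : ¬ (2 : ℤ) ∣ Selmer.unitPart 2 W.Δ := by
    exact_mod_cast Selmer.not_dvd_unitPart (v := 2) h.ne_zero
  rw [← ch_Δ h.ne_zero, ← Selmer.unitPart_mul_pow (v := 2) W.Δ,
    Selmer.ch_mul (pow_ne_zero _ (by norm_num)) (Selmer.unitPart_ne_zero h.ne_zero),
    Selmer.ch_pow (by norm_num), Selmer.ch_two_odd hu (CFT.Flat.inG_le_decG 2 hτ), hm1,
    ch_five_inertia hτ, mul_zero, mul_zero, add_zero, add_zero, Nat.cast_ofNat, h2, mul_one,
    ZMod.natCast_eq_one_iff_odd.mpr (h.odd_val 2 Nat.prime_two (by exact_mod_cast h.two_dvd))]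

/-- The chosen inertia element at a bad prime. -/
structure TauData (W : WeierstrassCurve ℤ) (hΔ : W.Δ ≠ 0) (v : ℕ) (τ : GQ) : Prop where
  /-- `τ` is in inertia at `v`. -/
  mem : ∀ [Fact v.Prime], τ ∈ inG v
  /-- The sign is `1` at `τ`: it does not commute residually with the element of order three. -/
  eta : eta W hΔ τ = 1
  /-- At `2`, `τ` raises the eighth roots of unity to the fifth power. -/
  five : v = 2 → (cyclotomicHom (2 ^ 3) τ : ZMod (2 ^ 3)) = 5
  /-- At odd `v`, `τ` moves the square root of `v`. -/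
  odd : v ≠ 2 → ch (v : ℤ) τ = 1

theorem exists_tau (h : Good W) {v : ℕ} (hv : v ∈ badSet W) :
    ∃ τ : GQ, TauData W h.ne_zero v τ := by
  obtain ⟨hvp, hdvd⟩ := (mem_badSet h.ne_zero).mp hv
  have : Fact v.Prime := ⟨hvp⟩
  by_cases hv2 : v = 2
  · subst hv2
    obtain ⟨τ, hτ, he⟩ := exists_inertia_cyclotomicHom_two_pow_eq (M := 3) (A := padicPlace 2)
      (CFT.Local.padicPlace_liesOverPrime 2) ⟨5, 5, by decide, by decide⟩
    exact ⟨τ, hτ, eta_eq_one_of_cyc h hτ (by rw [he]), fun _ => by rw [he], fun h' => absurd rfl h'⟩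
  · obtain ⟨τ, hτ, he, hch⟩ := exists_inertia_eta_one h.ne_zero hv2 (h.odd_val v hvp hdvd)
    exact ⟨τ, hτ, he, fun h' => absurd h' hv2, fun _ => hch⟩

/-- The inertia element at a bad prime. -/
def tau (h : Good W) (v : ℕ) : GQ := if hv : v ∈ badSet W then (exists_tau h hv).choose else 1

/-- The chosen element at a bad prime is in inertia and has nontrivial sign. -/
theorem tau_spec (h : Good W) {v : ℕ} (hv : v ∈ badSet W) :
    TauData W h.ne_zero v (tau h v) := by
  rw [tau, dif_pos hv]; exact (exists_tau h hv).choose_spec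

/-- The decomposition set at a prime is the decomposition group of the chosen place. -/
theorem dec_eq {v : ℕ} [hv : Fact v.Prime] :
    dec v = ((padicPlace v).decompositionSubgroup ℚ : Set GQ) := dif_pos hv.out

/-- The ordinary structure at a bad prime. -/
theorem exists_lineAt_dec (h : Good W) {v : ℕ} (hv : v ∈ badSet W) [Fact v.Prime] :
    ∃ ε : GQ → ℤ_[2], (∀ σ ∈ inG v, ε σ = 1) ∧ LineAt (rho2 W h.ne_zero) (dec v) ε := by
  rw [dec_eq]
  exact exists_lineAt h.ne_zero (CFT.Local.padicPlace_liesOverPrime v) Fact.out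
    ((mem_badSet h.ne_zero).mp hv).2 (not_dvd_c₄ h hv)

/-- The ordinary structure modulo `2 ^ M`. -/
theorem exists_ordAt (h : Good W) (M : ℕ) {v : ℕ} (hv : v ∈ badSet W) [Fact v.Prime] :
    ∃ ε : GQ → ZMod (2 ^ M), (∀ σ ∈ inG v, ε σ = 1) ∧
      OrdAt (rhoN W h.ne_zero M) (dec v) (cycInt M) ε := by
  obtain ⟨ε, hI, hline⟩ := exists_lineAt_dec h hv
  refine ⟨PadicInt.toZModPow M ∘ ε, fun σ hσ => by
    rw [Function.comp_apply, hI σ hσ, map_one], hline.ordAt _ _ (fun g => rfl) fun g _ => ?_⟩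
  rw [det_rho2, det_tateRep_eq_cyclotomicHom, intCast_cycInt]

/-- The residual representation of the curve satisfies `Residual` at its bad primes. -/
theorem residual (h : Good W) :
    Residual (resRep W h.ne_zero) (badSet W) fun v => resMat W h.ne_zero (tau h v) where
  surjective :=
    resRep_surjective h.ne_zero h.no_root
      (tau_spec h (v := 2)
        ((mem_badSet h.ne_zero).mpr ⟨Nat.prime_two, by exact_mod_cast h.two_dvd⟩)).eta
  locConst := by
    obtain ⟨L, hLfin, hL⟩ := locConst_rhoN h.ne_zero 1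
    refine ⟨L, hLfin, fun g g' hgg => Units.ext ?_⟩
    rw [← map_rhoN h.ne_zero one_pos, ← map_rhoN h.ne_zero one_pos, hL g g' hgg]
  prime v hv := ((mem_badSet h.ne_zero).mp hv).1
  two_mem := (mem_badSet h.ne_zero).mpr ⟨Nat.prime_two, by exact_mod_cast h.two_dvd⟩
  unram v hv hvS A hA σ hσ := by
    have hgood : W.IsGoodPrimeFor v := fun hd => hvS ((mem_badSet h.ne_zero).mpr ⟨hv, hd⟩)
    have hv2 : v ≠ 2 := fun e => hvS ((mem_badSet h.ne_zero).mpr ⟨hv, by
      subst e; exact_mod_cast h.two_dvd⟩)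
    refine Units.ext ?_
    show (rho2 W h.ne_zero σ).map PadicInt.toZMod = 1
    rw [unram_rhoN h.ne_zero hv hgood hv2 hA hσ, Matrix.map_one _ (map_zero _) (map_one _)]
  transp v hv := isTransp_of_eta h.ne_zero (tau_spec h hv).eta
  line v hv g hg := by
    have : Fact v.Prime := ⟨((mem_badSet h.ne_zero).mp hv).1⟩
    obtain ⟨ε, hI, hord⟩ := exists_ordAt h 1 hv
    have hs := isTransp_of_eta h.ne_zero (tau_spec h hv).eta
    have hτmem := (tau_spec h hv).mem
    have hτD : tau h v ∈ dec v := by rw [dec_eq]; exact CFT.Flat.inG_le_decG v hτmem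
    -- modulo `2` the ordinary relations with `tau` force an element into `{1, tau}`
    have key : ∀ (s g : M2 (ZMod 2)) (a b : ZMod 2), IsTransp s ∧ g.det = 1 ∧
        (g - (a * b) • 1) * (s - 1) = 0 ∧ (s - 1) * (g - a • 1) = 0 →
        g = 1 ∨ g = s := by
      decide
    let c := ZMod.castHom (dvd_pow_self 2 one_ne_zero) (ZMod 2)
    have h1 := congrArg c.mapMatrix (hord.mul g hg _ hτD)
    have h2 := congrArg c.mapMatrix (hord.mul _ hτD g hg)
    have hsc : ∀ x : ZMod (2 ^ 1), c.mapMatrix (x • (1 : M2 (ZMod (2 ^ 1)))) =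
        c x • (1 : M2 (ZMod 2)) := fun x => by
      ext i j
      by_cases hij : i = j <;> simp [hij]
    have hcχ : ∀ σ : GQ, c ((cycInt 1 σ : ℤ) : ZMod (2 ^ 1)) = 1 := fun σ => by
      have hu : IsUnit (c ((cycInt 1 σ : ℤ) : ZMod (2 ^ 1))) :=
        (intCast_cycInt 1 σ ▸ (cyclotomicHom (2 ^ 1) σ).isUnit).map c
      exact (by decide : ∀ d : ZMod 2, IsUnit d → d = 1) _ hu
    have hm : ∀ σ, c.mapMatrix (rhoN W h.ne_zero 1 σ) = resMat W h.ne_zero σ := fun σ =>
      map_rhoN h.ne_zero one_pos σ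
    rw [map_mul, map_sub, map_sub, map_zero, hm, hm, hsc, hsc, hI _ hτmem, map_one,
      one_smul] at h1
    rw [map_mul, map_sub, map_sub, map_zero, hm, hm, hsc, hsc, hI _ hτmem, map_mul, map_one,
      hcχ, one_mul, one_smul] at h2
    rw [map_mul] at h1
    exact key _ _ _ _ ⟨hs, (by decide : ∀ d : ZMod 2, IsUnit d → d = 1) _
      (isUnit_det_resMat h.ne_zero g), h1, h2⟩
  conj := exists_conj_signs h.ne_zero h.neg

/-- The representation modulo `2 ^ N` of the curve satisfies `Lift` at an odd bad prime `l₁`, given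
a second odd bad prime `l₂`. -/
theorem lift (h : Good W) {N : ℕ} (hN : 0 < N) {l₁ l₂ : ℕ} (h₁ : l₁ ∈ badSet W)
    (h₂ : l₂ ∈ badSet W) (hne : l₁ ≠ l₂) (h₁2 : l₁ ≠ 2) (h₂2 : l₂ ≠ 2) :
    Lift (resRep W h.ne_zero) (badSet W) l₁ N (rhoN W h.ne_zero N).toHomUnits where
  pos := hN
  locConst := by
    obtain ⟨L, hLfin, hL⟩ := locConst_rhoN h.ne_zero N
    exact ⟨L, hLfin, fun g g' hgg => Units.ext (hL g g' hgg)⟩
  residual g := map_rhoN h.ne_zero hN g
  det_surjective u := by
    obtain ⟨g, hg⟩ := cyclotomicHom_surjective (2 ^ N) u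
    exact ⟨g, by rw [MonoidHom.coe_toHomUnits, det_rhoN, hg]⟩
  unram v hv hvS A hA σ hσ := by
    have hgood : W.IsGoodPrimeFor v := fun hd => hvS ((mem_badSet h.ne_zero).mpr ⟨hv, hd⟩)
    have hv2 : v ≠ 2 := fun e => hvS ((mem_badSet h.ne_zero).mpr ⟨hv, by
      subst e; exact_mod_cast h.two_dvd⟩)
    refine Units.ext ?_
    show (rho2 W h.ne_zero σ).map (PadicInt.toZModPow N) = 1
    rw [unram_rhoN h.ne_zero hv hgood hv2 hA hσ, Matrix.map_one _ (map_zero _) (map_one _)]
  mem := h₁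
  -- The chosen inertia element at `l₁` moves `√l₁`.
  exists_moving := by
    obtain ⟨hl, -⟩ := (mem_badSet h.ne_zero).mp h₁
    have : Fact l₁.Prime := ⟨hl⟩
    refine ⟨tau h l₁, rhoN_sub_one_sq h.ne_zero hl h₁2 h.semistable N
      (CFT.Local.padicPlace_liesOverPrime l₁) (tau_spec h h₁).mem, fun e => ?_, fun x hx => ?_⟩
    · exact resMat_ne_one_of_eta h.ne_zero (by rw [(tau_spec h h₁).eta]; exact one_ne_zero)
        (congrArg Units.val e)
    · have hch := (tau_spec h h₁).odd h₁2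
      have hl0 : (l₁ : ℤ) ≠ 0 := by exact_mod_cast hl.ne_zero
      have hr := Selmer.map_rt_ch hl0 (tau h l₁)
      rw [hch, Selmer.pm_one, neg_one_mul] at hr
      have e2 : x ^ 2 = Selmer.rt ((l₁ : ℤ) : QBar) ^ 2 := by
        rw [hx, Selmer.rt_sq, Int.cast_natCast]
      rcases sq_eq_sq_iff_eq_or_eq_neg.mp e2 with e | e
      · rw [e, hr]
      · rw [e, map_neg, hr]
  -- That at `l₂` fixes it, `l₁` being a unit there.
  exists_fixing := by
    obtain ⟨hl, -⟩ := (mem_badSet h.ne_zero).mp h₂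
    obtain ⟨hl', -⟩ := (mem_badSet h.ne_zero).mp h₁
    have : Fact l₂.Prime := ⟨hl⟩
    refine ⟨tau h l₂, rhoN_sub_one_sq h.ne_zero hl h₂2 h.semistable N
      (CFT.Local.padicPlace_liesOverPrime l₂) (tau_spec h h₂).mem, fun e => ?_, fun x hx => ?_⟩
    · exact resMat_ne_one_of_eta h.ne_zero (by rw [(tau_spec h h₂).eta]; exact one_ne_zero)
        (congrArg Units.val e)
    · have hl0 : (l₁ : ℤ) ≠ 0 := by exact_mod_cast hl'.ne_zero
      have hch : ch (l₁ : ℤ) (tau h l₂) = 0 := Selmer.ch_inertia_unit h₂2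
        (fun hd => hne ((Nat.prime_dvd_prime_iff_eq hl hl').mp (by exact_mod_cast hd)).symm)
        (tau_spec h h₂).mem
      have hr := Selmer.map_rt_ch hl0 (tau h l₂)
      rw [hch, Selmer.pm_zero, one_mul] at hr
      have e2 : x ^ 2 = Selmer.rt ((l₁ : ℤ) : QBar) ^ 2 := by
        rw [hx, Selmer.rt_sq, Int.cast_natCast]
      rcases sq_eq_sq_iff_eq_or_eq_neg.mp e2 with e | e
      · rw [e, hr]
      · rw [e, map_neg, hr]

/-- The trace at a Frobenius element of a good odd prime. -/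
theorem trace_rhoN (h : Good W) (N : ℕ) {l : ℕ} (hl : l.Prime) (hlS : l ∉ badSet W)
    {A : ValuationSubring QBar} (hA : A.LiesOverPrime l) {σ : GQ} (hσ : A.IsFrobeniusAt σ l) :
    (rhoN W h.ne_zero N σ).trace = (W.apOfModel l : ZMod (2 ^ N)) ∧
      (rhoN W h.ne_zero N σ).det = (l : ZMod (2 ^ N)) := by
  have hgood : W.IsGoodPrimeFor l := fun hd => hlS ((mem_badSet h.ne_zero).mpr ⟨hl, hd⟩)
  have hl2 : l ≠ 2 := fun e => hlS ((mem_badSet h.ne_zero).mpr ⟨hl, by
    subst e; exact_mod_cast h.two_dvd⟩)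
  obtain ⟨h1, h2⟩ := tateRep_trace_det_frobenius (p := 2) h.ne_zero hl hgood hl2 hA hσ
  refine ⟨?_, ?_⟩
  · refine (AddMonoidHom.map_trace (PadicInt.toZModPow (p := 2) N).toAddMonoidHom _).symm.trans ?_
    show PadicInt.toZModPow N (rho2 W h.ne_zero σ).trace = _
    rw [trace_rho2]
    rw [GaloisRepAdic.trace] at h1
    rw [h1, map_intCast]
  · rw [det_rhoN, cyclotomicHom_two_pow_frobenius hl hl2 hA hσ]

end Fermat.Agent.LT.Curve
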