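import Fermat.Agent.EC.Rep.Local.StrictOrdinary
import Fermat.Agent.LT.Local.Identities

/-!
# The line of the `2`-adic representation at a multiplicative prime

At every prime of multiplicative reduction, the residue characteristic `2` included, the Tate module
at `2` has a line on which the decomposition group acts through `ε det` with quotient character `ε`,
`ε` a sign trivial on inertia.
-/

set_option autoImplicit false

noncomputable section

open WeierstrassCurve Polynomial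

namespace Fermat.Agent.LT.Curve

open Fermat.Agent.EC.Reduction Fermat.Agent.EC.Multiplicative Fermat.Agent.EC.Rep
open Fermat.Agent.Arith (QBar GQ)
open Fermat.Agent.LT.Deform (M2 LineAt)

variable {W : WeierstrassCurve ℤ}

/-- At a node over `2` some point of order two does not reduce to the origin. -/
theorem exists_two_torsion_not_inE1 {A : ValuationSubring QBar} (hA : A.LiesOverPrime 2)
    (hΔ0 : W.Δ ≠ 0) (hc₄ : ¬ (2 : ℤ) ∣ W.c₄) :
    ∃ P : EC.AtP.PointQBar W, 2 • P = 0 ∧ ¬ InE1 A P := by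
  by_contra hall
  simp only [not_exists, not_and, not_not] at hall
  have : (W.map (Int.castRingHom ℚ)).IsElliptic :=
    (WeierstrassCurve.isElliptic_iff _).mpr (isUnit_iff_ne_zero.mpr (by
      rw [map_Δ]; simpa using hΔ0))
  have hb : ¬ (2 : ℤ) ∣ W.b₂ := fun h => hc₄ (by
    rw [WeierstrassCurve.c₄]
    exact dvd_sub ((dvd_pow_self (2 : ℤ) two_ne_zero).trans (pow_dvd_pow_of_dvd h 2))
      (dvd_mul_of_dvd_left (by norm_num) _))
  have hc2 : W.Ψ₂Sq.coeff 2 = W.b₂ := by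
    simp only [WeierstrassCurve.Ψ₂Sq, Polynomial.coeff_add, Polynomial.coeff_C_mul,
      Polynomial.coeff_X_pow, Polynomial.coeff_X, Polynomial.coeff_C]
    norm_num
  have hroots : ∀ x : QBar, (W.Ψ₂Sq.map (Int.castRingHom QBar)).eval x = 0 → x ∉ A := by
    intro x hx
    obtain ⟨y, hy⟩ := Fermat.Agent.EC.Torsion.exists_equation
      ((W.map (Int.castRingHom ℚ))⁄QBar).toAffine x
    have hns := Affine.equation_iff_nonsingular.mp hy
    refine hall _ ((EC.Torsion.nsmul_some_eq_zero_iff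
      (W := ((W.map (Int.castRingHom ℚ))⁄QBar).toAffine) hns 2).mpr ?_)
    have e : W.map (Int.castRingHom QBar) = (W.map (Int.castRingHom ℚ))⁄QBar := by
      show _ = (W.map (Int.castRingHom ℚ)).map (algebraMap ℚ QBar)
      rw [WeierstrassCurve.map_map]
      exact congrArg _ (RingHom.ext_int _ _)
    rw [show ((2 : ℕ) : ℤ) = 2 from rfl, WeierstrassCurve.ΨSq_two, ← e, map_Ψ₂Sq]
    exact hx
  obtain ⟨-, h1⟩ := EC.AtP.dvd_coeff_of_roots_notMem hA Nat.prime_two _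
    ⟨2, by rw [hc2]; exact_mod_cast hb⟩ hroots
  exact hb (by have := h1 1; rw [hc2] at this; exact_mod_cast this)

open scoped Classical in
/-- The compatible system of `2`-power torsion with nonsingular reduction at any node. -/
theorem exists_two_system {v : ℕ} {A : ValuationSubring QBar} (hA : A.LiesOverPrime v)
    (hv : v.Prime) (hΔ0 : W.Δ ≠ 0) (hΔ : (v : ℤ) ∣ W.Δ) (hc₄ : ¬ (v : ℤ) ∣ W.c₄) :
    ∃ R : ℕ → EC.AtP.PointQBar W, (∀ n, (2 : ℤ) ^ n • R n = 0) ∧
      (∀ n, (2 : ℤ) • R (n + 1) = R n) ∧ R 1 ≠ 0 ∧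
      (∀ n, InE0 A (W.map (Int.castRingHom (IsLocalRing.ResidueField A))) (R n)) ∧
      ∀ n (x : EC.AtP.PointQBar W), (2 : ℤ) ^ n • x = 0 →
        InE0 A (W.map (Int.castRingHom (IsLocalRing.ResidueField A))) x → ∃ a : ℤ, x = a • R n := by
  have : (W.map (Int.castRingHom ℚ)).IsElliptic :=
    (WeierstrassCurve.isElliptic_iff _).mpr (isUnit_iff_ne_zero.mpr (by
      rw [map_Δ]; simpa using hΔ0))
  obtain ⟨N, -⟩ := exists_node_int hA hv hΔ0 hΔ hc₄
  refine exists_inE0_system_of_node (p := 2) hA hv Nat.prime_two hΔ0 hΔ hc₄ ?_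
  by_cases h2 : v = 2
  · subst h2
    obtain ⟨P, hP, hP1⟩ := exists_two_torsion_not_inE1 hA hΔ0 (by exact_mod_cast hc₄)
    exact ⟨P, hP, fun h => hP1 (inE1_of_pow_nsmul_eq_zero N hA hv h (n := 1)
      (by rw [pow_one]; exact hP))⟩
  · exact N.exists_torsion_not_inE0 (valuation_natCast_eq_one hA hv fun h =>
      h2 ((Nat.prime_dvd_prime_iff_eq hv Nat.prime_two).mp h)) one_lt_two
      (EC.Torsion.natCard_torsionBy_algebraicClosureRat _ two_ne_zero)

variable (W) (hΔ : W.Δ ≠ 0)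

/-- The representation on the `2`-adic Tate module, in matrices. -/
def rho2 : GQ →* M2 ℤ_[2] where
  toFun σ := LinearMap.toMatrix (Module.Basis.finTwoProd ℤ_[2])
    (Module.Basis.finTwoProd ℤ_[2]) ((tateRep W 2 hΔ).ρ σ)
  map_one' := by rw [map_one]; exact LinearMap.toMatrix_one _
  map_mul' g h := by rw [map_mul]; exact LinearMap.toMatrix_mul _ _ _

variable {W}

/-- The determinant of the matrices on the Tate module is the intrinsic one. -/
theorem det_rho2 (σ : GQ) : (rho2 W hΔ σ).det = LinearMap.det ((tateRep W 2 hΔ).ρ σ) :=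
  LinearMap.det_toMatrix (Module.Basis.finTwoProd ℤ_[2]) _

theorem trace_rho2 (σ : GQ) :
    (rho2 W hΔ σ).trace = LinearMap.trace ℤ_[2] _ ((tateRep W 2 hΔ).ρ σ) :=
  (LinearMap.trace_eq_matrix_trace ℤ_[2] (Module.Basis.finTwoProd ℤ_[2]) _).symm

/-- A line with signs on the quotient gives the matrix identities. -/
theorem lineAt_of_line {D : Set GQ} {ε : GQ → ℤ_[2]}
    (b : Module.Basis (Fin 2) ℤ_[2] (tateRep W 2 hΔ).V) (hε : ∀ σ ∈ D, ε σ * ε σ = 1)
    (hline : ∀ σ ∈ D, (tateRep W 2 hΔ).ρ σ (b 0) ∈ ℤ_[2] ∙ b 0)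
    (hquot : ∀ σ ∈ D, ∀ x, (tateRep W 2 hΔ).ρ σ x - ε σ • x ∈ ℤ_[2] ∙ b 0) :
    LineAt (rho2 W hΔ) D ε := by
  have key : ∀ σ ∈ D, ∃ x : ℤ_[2], (tateRep W 2 hΔ).ρ σ (b 0) = x • b 0 ∧
      LinearMap.det ((tateRep W 2 hΔ).ρ σ) = x * ε σ ∧
      LinearMap.trace ℤ_[2] _ ((tateRep W 2 hΔ).ρ σ) = x + ε σ := by
    intro σ hσ
    obtain ⟨x, hx⟩ := Submodule.mem_span_singleton.mp (hline σ hσ)
    obtain ⟨c, hc⟩ := Submodule.mem_span_singleton.mp (hquot σ hσ (b 1))
    have h1 : (tateRep W 2 hΔ).ρ σ (b 1) = c • b 0 + ε σ • b 1 := by rw [hc]; abel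
    refine ⟨x, hx.symm, ?_, ?_⟩
    · rw [← LinearMap.det_toMatrix b, Matrix.det_fin_two]
      simp [LinearMap.toMatrix_apply, ← hx, h1]
    · rw [LinearMap.trace_eq_matrix_trace ℤ_[2] b, Matrix.trace_fin_two]
      simp [LinearMap.toMatrix_apply, ← hx, h1]
  refine ⟨fun g hg h hh => ?_, fun g hg => ?_⟩
  · obtain ⟨x, hx, hd, -⟩ := key g hg
    have e : ε g * (rho2 W hΔ g).det = x := by
      rw [det_rho2, hd]
      linear_combination x * hε g hg
    rw [e]
    show (LinearMap.toMatrix _ _ _ - _) * (LinearMap.toMatrix _ _ _ - _) = 0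
    have h1 : (1 : M2 ℤ_[2]) = LinearMap.toMatrix (Module.Basis.finTwoProd ℤ_[2])
        (Module.Basis.finTwoProd ℤ_[2]) (1 : Module.End ℤ_[2] (tateRep W 2 hΔ).V) :=
      (LinearMap.toMatrix_one _).symm
    rw [h1, ← map_smul, ← map_smul, ← map_sub, ← map_sub]
    refine ((LinearMap.toMatrix_mul _ _ _).symm.trans ?_)
    refine (congrArg _ ?_).trans (map_zero _)
    have hline0 : ∀ u ∈ ℤ_[2] ∙ b 0, (tateRep W 2 hΔ).ρ g u - x • u = 0 := by
      intro u hu
      obtain ⟨c, rfl⟩ := Submodule.mem_span_singleton.mp hu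
      rw [map_smul, hx, smul_comm, sub_self]
    exact LinearMap.ext fun w => hline0 _ (hquot h hh w)
  · obtain ⟨x, -, hd, ht⟩ := key g hg
    rw [trace_rho2, det_rho2, ht, hd]
    linear_combination (-x) * hε g hg

open scoped Classical in
/-- **At every bad prime** the representation has a line with quotient a sign trivial on inertia. -/
theorem exists_lineAt {v : ℕ} {A : ValuationSubring QBar} (hA : A.LiesOverPrime v) (hv : v.Prime)
    (hdvd : (v : ℤ) ∣ W.Δ) (hc₄ : ¬ (v : ℤ) ∣ W.c₄) :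
    ∃ ε : GQ → ℤ_[2], (∀ σ ∈ A.inertiaSubgroupIn ℚ, ε σ = 1) ∧
      LineAt (rho2 W hΔ) (A.decompositionSubgroup ℚ : Set GQ) ε := by
  set V := W.map (Int.castRingHom (IsLocalRing.ResidueField A)) with hV
  obtain ⟨R, htor, hstep, hR1, hR0, hgen⟩ := exists_two_system hA hv hΔ hdvd hc₄
  obtain ⟨b, hw', hmem⟩ := exists_basis_of_inE0_system (p := 2) hΔ R htor hstep hR1 hgen
  have hsign : ∀ σ : GQ, σ ∈ A.decompositionSubgroup ℚ → ∃ e : ℤ, e * e = 1 ∧
      (σ ∈ A.inertiaSubgroupIn ℚ → e = 1) ∧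
      (∀ x, (tateRep W 2 hΔ).ρ σ x - e • x ∈ ℤ_[2] ∙ b 0) ∧
      (tateRep W 2 hΔ).ρ σ (b 0) ∈ ℤ_[2] ∙ b 0 := by
    intro σ hσ
    obtain ⟨e, he, h1, h2⟩ := exists_sign_decomposition hA hv hΔ hdvd hc₄ hσ
    have hb : (tateRep W 2 hΔ).ρ σ (b 0) ∈ ℤ_[2] ∙ b 0 := hmem _ fun n => by
      rw [red_tateRep, hw']; exact h2 _ (hR0 n)
    by_cases hI : σ ∈ A.inertiaSubgroupIn ℚ
    · refine ⟨1, one_mul 1, fun _ => rfl, fun x => hmem _ fun n => ?_, hb⟩
      rw [map_sub, red_tateRep, one_zsmul]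
      exact inE0_smul_sub_of_semistable hA hv hΔ (fun h => hc₄ h.1) hI _
    · refine ⟨e, he, fun h => absurd h hI, fun x => hmem _ fun n => ?_, hb⟩
      rw [map_sub, red_tateRep, map_zsmul]
      exact h1 _
  choose! e he hI hq hl using hsign
  refine ⟨fun σ => (e σ : ℤ_[2]), fun σ hσ => ?_, lineAt_of_line hΔ b (fun σ hσ => ?_)
    (fun σ hσ => hl σ hσ) fun σ hσ x => ?_⟩
  · have hσD : σ ∈ A.decompositionSubgroup ℚ := Subgroup.map_subtype_le _ hσ
    show (e σ : ℤ_[2]) = 1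
    rw [hI σ hσD hσ, Int.cast_one]
  · rw [← Int.cast_mul, he σ hσ, Int.cast_one]
  · rw [Int.cast_smul_eq_zsmul]
    exact hq σ hσ x

end Fermat.Agent.LT.Curve
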