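import Fermat.Agent.LT.Curve.TwoTorsion
import Fermat.Agent.LT.Curve.Cyclotomic
import Fermat.Agent.LT.Selmer.LocalOdd
import Fermat.Agent.EC.Rep.Local.Unipotent
import Fermat.Agent.EC.Rep.TWHypothesis
import Fermat.Agent.Mazur.Large.Line

/-!
# The residual representation on the points of order two, and the lift modulo `2 ^ N`

For a curve with negative discriminant, no rational point of order two and bad primes of odd
valuation this supplies the residual data and the lift of `LT/Selmer`.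
-/

set_option autoImplicit false

noncomputable section

open WeierstrassCurve Matrix

namespace Fermat.Agent.LT.Curve

open Fermat.Agent.EC.Rep
open Fermat.Agent.Arith (QBar GQ cyclotomicHom)
open Fermat.Agent.LT.Deform (M2 w₀ conjAct LineAt)
open Fermat.Agent.LT.Selmer (LocConst dec IsTransp ch pm)

variable (W : WeierstrassCurve ℤ) (hΔ : W.Δ ≠ 0)

/-- The representation modulo `2 ^ N`. -/
def rhoN (N : ℕ) : GQ →* M2 (ZMod (2 ^ N)) :=
  ((PadicInt.toZModPow (p := 2) N).mapMatrix).toMonoidHom.comp (rho2 W hΔ)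

/-- The sign of the residual permutation. -/
def eta (g : GQ) : ZMod 2 := if resMat W hΔ g * w₀ = w₀ * resMat W hΔ g then 0 else 1

variable {W}

theorem isUnit_det_resMat (g : GQ) : IsUnit (resMat W hΔ g).det :=
  (Matrix.isUnit_iff_isUnit_det _).mp (resRep W hΔ g).isUnit

/-- The sign of the residual permutation is additive. -/
theorem eta_mul (g h : GQ) : eta W hΔ (g * h) = eta W hΔ g + eta W hΔ h := by
  have key : ∀ M M' : M2 (ZMod 2), IsUnit M.det → IsUnit M'.det →
      (if M * M' * w₀ = w₀ * (M * M') then (0 : ZMod 2) else 1) =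
        (if M * w₀ = w₀ * M then 0 else 1) + (if M' * w₀ = w₀ * M' then 0 else 1) := by
    decide
  rw [eta, eta, eta, map_mul]
  exact key _ _ (isUnit_det_resMat hΔ g) (isUnit_det_resMat hΔ h)

theorem resMat_mul_inv (g : GQ) :
    resMat W hΔ g * ((resRep W hΔ g)⁻¹ : (M2 (ZMod 2))ˣ) = 1 :=
  (resRep W hΔ g).mul_inv

/-- The residual conjugation moves `w₀` by the sign. -/
theorem conjAct_w₀ (g : GQ) :
    conjAct (resRep W hΔ) g w₀ = w₀ + eta W hΔ g • 1 := by
  have key : ∀ M M' : M2 (ZMod 2), M * M' = 1 →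
      M * w₀ * M' = w₀ + (if M * w₀ = w₀ * M then (0 : ZMod 2) else 1) • 1 := by decide
  exact key _ _ (resMat_mul_inv hΔ g)

/-- The sign is the quadratic character of the discriminant. -/
theorem ch_Δ (g : GQ) : ch W.Δ g = eta W hΔ g := by
  refine Selmer.ch_eq_of_sq hΔ (x := 4 * rootDelta W hΔ) ?_ ?_
  · rw [mul_pow, show (4 : QBar) ^ 2 = 16 by norm_num, rootDelta_sq]
  · obtain ⟨h1, h2⟩ := map_rootDelta hΔ g
    rw [eta, map_mul, map_ofNat]
    split_ifs with h
    · rw [Selmer.pm_zero, one_mul, h1 h]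
    · rw [Selmer.pm_one, h2 h]; ring

theorem rootDelta_ne_zero : rootDelta W hΔ ≠ 0 := fun h => hΔ (by
  have := rootDelta_sq hΔ
  rw [h] at this
  simpa using this.symm)

/-- An element of nontrivial sign has nontrivial residual matrix. -/
theorem resMat_ne_one_of_eta {g : GQ} (h : eta W hΔ g ≠ 0) : resMat W hΔ g ≠ 1 := fun e => h (by
  rw [eta, e, one_mul, mul_one, if_pos rfl])

/-- An element of nontrivial sign acts as a transposition. -/
theorem isTransp_of_eta {g : GQ} (h : eta W hΔ g = 1) : IsTransp (resMat W hΔ g) := by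
  have key : ∀ M : M2 (ZMod 2), IsUnit M.det →
      (if M * w₀ = w₀ * M then (0 : ZMod 2) else 1) = 1 → IsTransp M := by decide
  exact key _ (isUnit_det_resMat hΔ g) h

/-- An element acting as a transposition has nontrivial sign. -/
theorem eta_eq_one_of_transp {g : GQ} (h : IsTransp (resMat W hΔ g)) : eta W hΔ g = 1 := by
  have key : ∀ M : M2 (ZMod 2), IsTransp M →
      (if M * w₀ = w₀ * M then (0 : ZMod 2) else 1) = 1 := by decide
  exact key _ h

/-- **Full image**, when no point of order two is rational and `Δ` is not a square. -/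
theorem resRep_surjective
    (hroot : ∀ x : ℚ,
      4 * x ^ 3 + (W.b₂ : ℚ) * x ^ 2 + 2 * (W.b₄ : ℚ) * x + (W.b₆ : ℚ) ≠ 0)
    {s : GQ} (hs : eta W hΔ s = 1) : Function.Surjective (resRep W hΔ) := by
  have : Algebra.IsAlgebraic ℚ QBar := AlgebraicClosure.isAlgebraic ℚ
  obtain ⟨g, hg1, hg2⟩ : ∃ g, resMat W hΔ g ≠ 1 ∧ resMat W hΔ g ≠ resMat W hΔ s := by
    by_contra hall
    simp only [not_exists, not_and, not_not] at hall
    obtain ⟨u, hu0, hu⟩ : ∃ u : Fin 2 → ZMod 2, u ≠ 0 ∧ resMat W hΔ s *ᵥ u = u := by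
      have key : ∀ M : M2 (ZMod 2), IsTransp M → ∃ u : Fin 2 → ZMod 2, u ≠ 0 ∧ M *ᵥ u = u := by
        decide
      exact key _ (isTransp_of_eta hΔ hs)
    obtain ⟨x, hx⟩ := (InfiniteGalois.mem_bot_iff_fixed (k := ℚ) (K := QBar)
      (absVec W hΔ u)).mpr fun g => by
        rw [map_absVec]
        by_cases h : resMat W hΔ g = 1
        · rw [h, one_mulVec]
        · rw [hall g h, hu]
    refine hroot x ((algebraMap ℚ QBar).injective ?_)
    have := absVec_root hΔ hu0
    rw [← hx] at this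
    simpa [map_add, map_mul, map_pow] using this
  intro M
  have key : ∀ s g M : M2 (ZMod 2), (IsTransp s ∧ g.det = 1 ∧ g ≠ 1 ∧ g ≠ s ∧ M.det = 1) →
      M = 1 ∨ M = s ∨ M = g ∨ M = g * g ∨ M = s * g ∨ M = g * s ∨ M = s * g * s := by
    set_option synthInstance.maxSize 512 in
    decide
  have hone : ∀ d : ZMod 2, IsUnit d → d = 1 := by decide
  have hM := key _ _ _ ⟨isTransp_of_eta hΔ hs, hone _ (isUnit_det_resMat hΔ g), hg1, hg2,
    hone _ ((Matrix.isUnit_iff_isUnit_det _).mp M.isUnit)⟩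
  suffices ∃ x, resMat W hΔ x = M from let ⟨x, hx⟩ := this; ⟨x, Units.ext hx⟩
  rcases hM with h | h | h | h | h | h | h
  · exact ⟨1, by rw [map_one, h]⟩
  · exact ⟨s, h.symm⟩
  · exact ⟨g, h.symm⟩
  · exact ⟨g * g, by rw [map_mul, h]⟩
  · exact ⟨s * g, by rw [map_mul, h]⟩
  · exact ⟨g * s, by rw [map_mul, h]⟩
  · exact ⟨s * g * s, by rw [map_mul, map_mul, h]⟩

/-- The image of a surjective representation spans the matrices modulo `2`. -/
theorem span_of_surjective {G : Type*} [Group G] {r : G →* (M2 (ZMod 2))ˣ}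
    (h : Function.Surjective r) :
    Submodule.span (ZMod 2) (Set.range fun g => (r g : M2 (ZMod 2))) = ⊤ := by
  rw [eq_top_iff]
  intro x _
  have key : ∀ x : M2 (ZMod 2), ∃ a b c e : ZMod 2,
      x = a • (1 : M2 (ZMod 2)) + b • !![0, 1; 1, 0] + c • !![1, 1; 0, 1] + e • !![0, 1; 1, 1] := by
    decide
  obtain ⟨a, b, c, e, rfl⟩ := key x
  have hmem : ∀ y : M2 (ZMod 2), IsUnit y.det →
      y ∈ Submodule.span (ZMod 2) (Set.range fun g => (r g : M2 (ZMod 2))) := fun y hy => by
    obtain ⟨g, hg⟩ := h ((Matrix.isUnit_iff_isUnit_det y).mpr hy).unit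
    exact Submodule.subset_span ⟨g, congrArg Units.val hg⟩
  exact add_mem (add_mem (add_mem (Submodule.smul_mem _ _ (hmem _ (by decide)))
    (Submodule.smul_mem _ _ (hmem _ (by decide)))) (Submodule.smul_mem _ _ (hmem _ (by decide))))
    (Submodule.smul_mem _ _ (hmem _ (by decide)))

/-- The two reductions agree. -/
theorem castHom_comp_toZModPow {N : ℕ} (hN : 0 < N) :
    (ZMod.castHom (dvd_pow_self 2 hN.ne') (ZMod 2)).comp (PadicInt.toZModPow (p := 2) N) =
      PadicInt.toZMod := by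
  refine RingHom.ext fun x => ?_
  have hx := PadicInt.toZMod_spec (p := 2) x
  rw [PadicInt.maximalIdeal_eq_span_p, Ideal.mem_span_singleton'] at hx
  obtain ⟨y, hy⟩ := hx
  set c : ℤ_[2] := ZMod.cast (PadicInt.toZMod x)
  have e : x = c + y * (2 : ℕ) := by rw [hy]; ring
  have hc : ∀ f : ℤ_[2] →+* ZMod 2, f c = PadicInt.toZMod x := fun f => by
    show f (ZMod.cast (PadicInt.toZMod x) : ℤ_[2]) = _
    rw [ZMod.cast_eq_val, map_natCast, ZMod.natCast_zmod_val]
  conv_lhs => rw [e]
  rw [map_add, map_mul, hc, map_natCast, ZMod.natCast_self, mul_zero, add_zero]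

/-- The lift modulo `2 ^ N` reduces to the residual representation. -/
theorem map_rhoN {N : ℕ} (hN : 0 < N) (g : GQ) :
    (rhoN W hΔ N g).map (ZMod.castHom (dvd_pow_self 2 hN.ne') (ZMod 2)) =
      (resRep W hΔ g : M2 (ZMod 2)) := by
  show ((rho2 W hΔ g).map (PadicInt.toZModPow N)).map _ = (rho2 W hΔ g).map PadicInt.toZMod
  rw [Matrix.map_map, ← castHom_comp_toZModPow hN]
  rfl

/-- The determinant of the lift is the cyclotomic character. -/
theorem det_rhoN (N : ℕ) (g : GQ) :
    (rhoN W hΔ N g).det = (cyclotomicHom (2 ^ N) g : ZMod (2 ^ N)) := by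
  show ((rho2 W hΔ g).map (PadicInt.toZModPow N)).det = _
  rw [← RingHom.mapMatrix_apply, ← RingHom.map_det, det_rho2, det_tateRep_eq_cyclotomicHom]

/-- The representation modulo a power of two has finite level. -/
theorem exists_level_rhoN (N : ℕ) : ∃ L : IntermediateField ℚ QBar, FiniteDimensional ℚ L ∧
    ∀ g : GQ, (∀ x ∈ L, g x = x) → rhoN W hΔ N g = 1 := by
  have : (W.map (Int.castRingHom ℚ)).IsElliptic := EC.FrobTrace.isElliptic_map_rat hΔ
  obtain ⟨L, hLfin, hL⟩ := EC.Torsion.galoisFactorsThroughFiniteLevel_galoisRepModuleEnd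
    (W.map (Int.castRingHom ℚ)) (n := 2 ^ N) (pow_ne_zero N two_ne_zero)
  refine ⟨L, hLfin, fun g hg => ?_⟩
  let b : Module.Basis (Fin 2) ℤ_[2] (tateRep W 2 hΔ).V := Module.Basis.finTwoProd ℤ_[2]
  ext i j
  show PadicInt.toZModPow N (rho2 W hΔ g i j) = _
  have hfix : tateRed hΔ N ((tateRep W 2 hΔ).ρ g (b j) - b j) = 0 := by
    rw [map_sub, red_tateRep, sub_eq_zero]
    exact congrArg Subtype.val (LinearMap.congr_fun (hL g hg)
      ⟨tateRed hΔ N (b j), by
        rw [Submodule.mem_torsionBy_iff]; push_cast; exact pow_smul_tateRed hΔ N _⟩)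
  obtain ⟨h1, h2⟩ := (tateRed_eq_zero_iff hΔ N _).mp hfix
  have e : rho2 W hΔ g i j - (1 : M2 ℤ_[2]) i j =
      b.repr ((tateRep W 2 hΔ).ρ g (b j) - b j) i := by
    show LinearMap.toMatrix b b _ i j - _ = _
    rw [LinearMap.toMatrix_apply, map_sub, Finsupp.sub_apply, Module.Basis.repr_self,
      Finsupp.single_apply, Matrix.one_apply]
    simp only [eq_comm]
  have h0 : rho2 W hΔ g i j - (1 : M2 ℤ_[2]) i j ∈ Ideal.span {((2 : ℕ) : ℤ_[2]) ^ N} := by
    rw [e]
    fin_cases i
    · exact h1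
    · exact h2
  rw [← PadicInt.ker_toZModPow, RingHom.mem_ker, map_sub, sub_eq_zero] at h0
  rw [h0, Matrix.one_apply, Matrix.one_apply]
  split <;> simp

theorem locConst_rhoN (N : ℕ) : LocConst (rhoN W hΔ N) := by
  obtain ⟨L, hLfin, hL⟩ := exists_level_rhoN hΔ N
  let L' : IntermediateField ℚ QBar := IntermediateField.normalClosure ℚ L QBar
  refine ⟨L', inferInstance, fun g g' h => ?_⟩
  have : rhoN W hΔ N (g⁻¹ * g') = 1 := hL _ fun x hx => by
    show g⁻¹ (g' x) = x
    rw [← h x (IntermediateField.le_normalClosure L hx)]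
    exact g.symm_apply_apply x
  calc rhoN W hΔ N g = rhoN W hΔ N g * rhoN W hΔ N (g⁻¹ * g') := by rw [this, mul_one]
    _ = rhoN W hΔ N g' := by rw [← map_mul, mul_inv_cancel_left]

/-- Inertia at an odd good prime acts trivially on the `2`-adic representation. -/
theorem unram_rhoN {v : ℕ} (hv : v.Prime) (hgood : W.IsGoodPrimeFor v) (hv2 : v ≠ 2)
    {A : ValuationSubring QBar} (hA : A.LiesOverPrime v) {σ : GQ}
    (hσ : σ ∈ A.inertiaSubgroupIn ℚ) : rho2 W hΔ σ = 1 := by
  show LinearMap.toMatrix _ _ _ = 1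
  rw [isUnramifiedAt_tateRep hΔ hv hgood hv2 A hA σ hσ]
  exact LinearMap.toMatrix_one _

/-- At a multiplicative prime of odd valuation some inertia element moves the square root of `Δ`
and is unipotent. -/
theorem exists_inertia_eta_one {v : ℕ} [Fact v.Prime] (hv2 : v ≠ 2)
    (hodd : Odd (padicValInt v W.Δ)) :
    ∃ τ ∈ (padicPlace v).inertiaSubgroupIn ℚ, eta W hΔ τ = 1 ∧ ch (v : ℤ) τ = 1 := by
  obtain ⟨τ, hτ, hch⟩ := Selmer.exists_inertia_ch_prime (v := v)
  refine ⟨τ, hτ, ?_, hch⟩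
  have hv0 : (v : ℤ) ≠ 0 := by exact_mod_cast (Fact.out : v.Prime).ne_zero
  rw [← ch_Δ hΔ, ← Selmer.unitPart_mul_pow (v := v) W.Δ,
    Selmer.ch_mul (pow_ne_zero _ hv0) (Selmer.unitPart_ne_zero hΔ), Selmer.ch_pow hv0,
    Selmer.ch_inertia_unit hv2 (Selmer.not_dvd_unitPart hΔ) hτ, hch, mul_one, add_zero,
    ZMod.natCast_eq_one_iff_odd.mpr hodd]

theorem rhoN_sub_one_sq {v : ℕ} (hv : v.Prime) (hv2 : v ≠ 2) (hW : W.IsSemistableModel)
    (N : ℕ) {A : ValuationSubring QBar} (hA : A.LiesOverPrime v) {σ : GQ}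
    (hσ : σ ∈ A.inertiaSubgroupIn ℚ) : (rhoN W hΔ N σ - 1) * (rhoN W hΔ N σ - 1) = 0 := by
  have h : ((tateRep W 2 hΔ).ρ σ - 1) * ((tateRep W 2 hΔ).ρ σ - 1) = 0 :=
    LinearMap.ext fun x => tateRed_eq_zero_of_forall hΔ fun n => by
      rw [Module.End.mul_apply, LinearMap.sub_apply, LinearMap.sub_apply, Module.End.one_apply,
        Module.End.one_apply, map_sub, red_tateRep, map_sub, red_tateRep,
        smul_smul_sub_of_semistable hv hv2 (semistable_not_dvd hW v hv) hΔ hA hσ n
          (pow_smul_tateRed hΔ n x), sub_self]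
  have h2 : (rho2 W hΔ σ - 1) * (rho2 W hΔ σ - 1) = 0 := by
    let b := Module.Basis.finTwoProd ℤ_[2]
    show (LinearMap.toMatrix b b _ - 1) * (LinearMap.toMatrix b b _ - 1) = 0
    rw [← LinearMap.toMatrix_one b]
    rw [← map_sub]
    refine (LinearMap.toMatrix_mul b _ _).symm.trans ?_
    exact (congrArg _ h).trans (map_zero _)
  have := congrArg (PadicInt.toZModPow (p := 2) N).mapMatrix h2
  rwa [map_mul, map_sub, map_one, map_zero] at this

/-- A complex conjugation negates square roots of `-1` and fixes those of natural numbers. -/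
theorem exists_conj_signs (hneg : W.Δ < 0) : ∃ c : GQ, c * c = 1 ∧ resRep W hΔ c ≠ 1 ∧
    (∀ x : QBar, x ^ 2 = -1 → c x = -x) ∧ ∀ (n : ℕ) (x : QBar), x ^ 2 = (n : QBar) → c x = x := by
  let ι : QBar →ₐ[ℚ] ℂ := IsAlgClosed.lift
  obtain ⟨c, hc⟩ := Mazur.Large.exists_conj ι
  have hinj : Function.Injective ι := (ι : QBar →+* ℂ).injective
  have hneg1 : ∀ x : QBar, ∀ r : ℤ, r < 0 → x ^ 2 = (r : QBar) → c x = -x := fun x r hr hx => by
    refine hinj ?_
    rw [hc, map_neg]
    have h2 : ι x ^ 2 = (r : ℂ) := by rw [← map_pow, hx, map_intCast]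
    have hre := congrArg Complex.re h2
    have him := congrArg Complex.im h2
    simp [sq, Complex.mul_re, Complex.mul_im] at hre him
    have hr' : (r : ℝ) < 0 := by exact_mod_cast hr
    have h0 : (ι x).re = 0 := by
      rcases mul_eq_zero.mp (show (ι x).re * (ι x).im = 0 by linarith) with h' | h'
      · exact h'
      · exfalso; rw [h', mul_zero] at hre; nlinarith [mul_self_nonneg (ι x).re]
    refine Complex.ext ?_ ?_ <;> simp [h0]
  refine ⟨c, AlgEquiv.ext fun x => hinj (by simp [hc]), fun h => ?_, fun x hx =>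
    hneg1 x (-1) (by norm_num) (by simpa using hx), fun n x hx => hinj ?_⟩
  · have hD := hneg1 (4 * rootDelta W hΔ) W.Δ hneg (by
      rw [mul_pow, show (4 : QBar) ^ 2 = 16 by norm_num, rootDelta_sq])
    rw [map_mul, map_ofNat, (map_rootDelta hΔ c).1 (by
      rw [show resMat W hΔ c = 1 from congrArg Units.val h, one_mul, mul_one])] at hD
    exact rootDelta_ne_zero hΔ (mul_left_cancel₀ (by norm_num : (4 : QBar) ≠ 0)
      (by linear_combination (1 / 2 : QBar) * hD))
  · rw [hc]
    have h2 : ι x ^ 2 = (n : ℂ) := by rw [← map_pow, hx, map_natCast]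
    have him := congrArg Complex.im h2
    have hre := congrArg Complex.re h2
    simp [sq, Complex.mul_re, Complex.mul_im] at hre him
    refine Complex.ext ?_ ?_ <;> simp only [Complex.conj_re, Complex.conj_im]
    rcases eq_or_ne (ι x).im 0 with h | h
    · rw [h, neg_zero]
    · exfalso
      have h0 : (ι x).re = 0 := by
        rcases mul_eq_zero.mp (show (ι x).re * (ι x).im = 0 by linarith) with h' | h'
        · exact h'
        · exact absurd h' h
      nlinarith [mul_self_pos.mpr h, Nat.cast_nonneg (α := ℝ) n]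

end Fermat.Agent.LT.Curve
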