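import Fermat.Agent.LT.Curve.Line

/-!
# The points of order two

The residual representation at `2` permutes the abscissas of the points of order two, and the
product of their differences is a square root of `Δ / 16`.
-/

set_option autoImplicit false

noncomputable section

open WeierstrassCurve Polynomial Matrix

namespace Fermat.Agent.LT.Curve

open Fermat.Agent.EC.Rep
open Fermat.Agent.Arith (QBar GQ)
open Fermat.Agent.LT.Deform (M2)

variable (W : WeierstrassCurve ℤ) (hΔ : W.Δ ≠ 0)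

/-- The residual representation in matrices. -/
def resMat : GQ →* M2 (ZMod 2) :=
  ((PadicInt.toZMod (p := 2)).mapMatrix).toMonoidHom.comp (rho2 W hΔ)

/-- **The residual representation.** -/
def resRep : GQ →* (M2 (ZMod 2))ˣ :=
  (resMat W hΔ).toHomUnits

/-- The lift of a vector modulo two. -/
def liftVec (u : Fin 2 → ZMod 2) : (tateRep W 2 hΔ).V :=
  (((u 0).val : ℤ_[2]), ((u 1).val : ℤ_[2]))

/-- The point of order two of a vector. -/
def twoPt (u : Fin 2 → ZMod 2) : PtQ W := tateRed hΔ 1 (liftVec W hΔ u)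

variable {W}

/-- Reduction of a vector of the Tate module. -/
theorem tateRed_one_eq (v : (tateRep W 2 hΔ).V) :
    tateRed hΔ 1 v = twoPt W hΔ ![PadicInt.toZMod (v : ℤ_[2] × ℤ_[2]).1,
      PadicInt.toZMod (v : ℤ_[2] × ℤ_[2]).2] := by
  rw [twoPt, ← sub_eq_zero, ← map_sub, tateRed_eq_zero_iff, pow_one,
    ← PadicInt.maximalIdeal_eq_span_p, ← PadicInt.ker_toZMod, RingHom.mem_ker, RingHom.mem_ker]
  constructor
  · show PadicInt.toZMod ((v : ℤ_[2] × ℤ_[2]).1 -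
      (((PadicInt.toZMod (v : ℤ_[2] × ℤ_[2]).1).val : ℕ) : ℤ_[2])) = 0
    rw [map_sub, map_natCast, ZMod.natCast_zmod_val, sub_self]
  · show PadicInt.toZMod ((v : ℤ_[2] × ℤ_[2]).2 -
      (((PadicInt.toZMod (v : ℤ_[2] × ℤ_[2]).2).val : ℕ) : ℤ_[2])) = 0
    rw [map_sub, map_natCast, ZMod.natCast_zmod_val, sub_self]

theorem smul_twoPt (g : GQ) (u : Fin 2 → ZMod 2) :
    g • twoPt W hΔ u = twoPt W hΔ (resMat W hΔ g *ᵥ u) := by
  let b : Module.Basis (Fin 2) ℤ_[2] (tateRep W 2 hΔ).V := Module.Basis.finTwoProd ℤ_[2]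
  have h := LinearMap.toMatrix_mulVec_repr b b ((tateRep W 2 hΔ).ρ g) (liftVec W hΔ u)
  rw [twoPt, ← red_tateRep, tateRed_one_eq]
  congr 1
  have hl : (fun j => PadicInt.toZMod (b.repr (liftVec W hΔ u) j)) = u := by
    funext j
    fin_cases j
    · show PadicInt.toZMod (((u 0).val : ℕ) : ℤ_[2]) = u 0
      simp
    · show PadicInt.toZMod (((u 1).val : ℕ) : ℤ_[2]) = u 1
      simp
  have e : ∀ i, PadicInt.toZMod (b.repr ((tateRep W 2 hΔ).ρ g (liftVec W hΔ u)) i) =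
      (resMat W hΔ g *ᵥ u) i := by
    intro i
    have h' := congrFun h i
    refine (congrArg PadicInt.toZMod h'.symm).trans ?_
    rw [RingHom.map_mulVec]
    show (((rho2 W hΔ g).map (PadicInt.toZMod (p := 2))) *ᵥ
      (fun j => PadicInt.toZMod (b.repr (liftVec W hΔ u) j))) i = _
    rw [hl]
    rfl
  funext i
  fin_cases i
  · exact e 0
  · exact e 1

theorem twoPt_zero : twoPt W hΔ 0 = 0 := by
  rw [twoPt, show liftVec W hΔ (0 : Fin 2 → ZMod 2) = 0 by
    show ((((0 : ZMod 2).val : ℕ) : ℤ_[2]), (((0 : ZMod 2).val : ℕ) : ℤ_[2])) = (0, 0)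
    simp, map_zero]

theorem two_nsmul_twoPt (u : Fin 2 → ZMod 2) : 2 • twoPt W hΔ u = 0 := by
  have := pow_smul_tateRed hΔ 1 (liftVec W hΔ u)
  rw [pow_one, natCast_zsmul] at this
  exact this

theorem twoPt_injective : Function.Injective (twoPt W hΔ) := by
  intro u u' h
  rw [twoPt, twoPt, ← sub_eq_zero, ← map_sub, tateRed_eq_zero_iff, pow_one,
    ← PadicInt.maximalIdeal_eq_span_p, ← PadicInt.ker_toZMod, RingHom.mem_ker,
    RingHom.mem_ker] at h
  obtain ⟨h0, h1⟩ := h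
  replace h0 : PadicInt.toZMod (((u 0).val : ℤ_[2]) - ((u' 0).val : ℤ_[2])) = 0 := h0
  replace h1 : PadicInt.toZMod (((u 1).val : ℤ_[2]) - ((u' 1).val : ℤ_[2])) = 0 := h1
  funext i
  fin_cases i
  · simpa [sub_eq_zero] using h0
  · simpa [sub_eq_zero] using h1

variable (W) in
/-- The abscissa, `0` at the origin. -/
def absc : PtQ W → QBar
  | .zero => 0
  | .some x _ _ => x

theorem absc_smul (g : GQ) (P : PtQ W) : absc W (g • P) = g (absc W P) := by
  rcases P with _ | ⟨x, y, h⟩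
  · exact (map_zero g).symm
  · rfl

variable (W) in
/-- The abscissa of the point of a vector. -/
def absVec (u : Fin 2 → ZMod 2) : QBar := absc W (twoPt W hΔ u)

theorem map_absVec (g : GQ) (u : Fin 2 → ZMod 2) :
    g (absVec W hΔ u) = absVec W hΔ (resMat W hΔ g *ᵥ u) := by
  rw [absVec, absVec, ← absc_smul, smul_twoPt]

theorem absVec_root {u : Fin 2 → ZMod 2} (hu : u ≠ 0) :
    4 * absVec W hΔ u ^ 3 + (W.b₂ : QBar) * absVec W hΔ u ^ 2 + 2 * (W.b₄ : QBar) * absVec W hΔ u +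
      (W.b₆ : QBar) = 0 := by
  have h2 := two_nsmul_twoPt hΔ u
  have hne : twoPt W hΔ u ≠ 0 := fun e => hu (twoPt_injective hΔ (e.trans (twoPt_zero hΔ).symm))
  have : (W.map (Int.castRingHom ℚ)).IsElliptic :=
    (WeierstrassCurve.isElliptic_iff _).mpr (isUnit_iff_ne_zero.mpr (by
      rw [map_Δ]; simpa using hΔ))
  rw [absVec]
  rcases hP : twoPt W hΔ u with _ | ⟨x, y, h⟩
  · exact absurd hP hne
  rw [hP] at h2
  have e := (EC.Torsion.nsmul_some_eq_zero_iff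
    (W := ((W.map (Int.castRingHom ℚ))⁄QBar).toAffine) h 2).mp h2
  rw [show ((2 : ℕ) : ℤ) = 2 from rfl, WeierstrassCurve.ΨSq_two] at e
  show 4 * x ^ 3 + _ * x ^ 2 + _ * x + _ = 0
  have hm : ((W.map (Int.castRingHom ℚ))⁄QBar).toAffine = W.map (Int.castRingHom QBar) := by
    show (W.map (Int.castRingHom ℚ)).map (algebraMap ℚ QBar) = _
    rw [WeierstrassCurve.map_map]
    exact congrArg _ (RingHom.ext_int _ _)
  rw [hm] at e
  simpa [WeierstrassCurve.Ψ₂Sq] using e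

theorem absVec_injective {u u' : Fin 2 → ZMod 2} (hu : u ≠ 0) (hu' : u' ≠ 0)
    (h : absVec W hΔ u = absVec W hΔ u') : u = u' := by
  have hne : ∀ {v : Fin 2 → ZMod 2}, v ≠ 0 → twoPt W hΔ v ≠ 0 := fun hv e =>
    hv (twoPt_injective hΔ (e.trans (twoPt_zero hΔ).symm))
  have h2 := two_nsmul_twoPt hΔ u'
  have hu0 := hne hu
  have hu0' := hne hu'
  rw [absVec, absVec] at h
  refine twoPt_injective hΔ ?_
  rcases hP : twoPt W hΔ u with _ | ⟨x, y, hxy⟩
  · exact absurd hP hu0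
  rcases hQ : twoPt W hΔ u' with _ | ⟨x', y', hxy'⟩
  · exact absurd hQ hu0'
  rw [hP, hQ] at h
  obtain rfl : x = x' := h
  rw [hQ, two_nsmul, ← eq_neg_iff_add_eq_zero, Affine.Point.neg_some, Affine.Point.some.injEq] at h2
  rcases Affine.Y_eq_of_X_eq hxy.1 hxy'.1 rfl with hy | hy
  · subst hy; rfl
  · rw [Affine.Point.some.injEq]
    exact ⟨rfl, hy.trans h2.2.symm⟩

variable (W) in
/-- The product of the differences of the abscissas. -/
def rootDelta : QBar :=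
  (absVec W hΔ ![1, 0] - absVec W hΔ ![0, 1]) * (absVec W hΔ ![0, 1] - absVec W hΔ ![1, 1]) *
    (absVec W hΔ ![1, 1] - absVec W hΔ ![1, 0])

theorem rootDelta_sq : 16 * rootDelta W hΔ ^ 2 = (W.Δ : QBar) := by
  set a := absVec W hΔ ![1, 0]
  set b := absVec W hΔ ![0, 1]
  set c := absVec W hΔ ![1, 1]
  have ha := absVec_root hΔ (u := ![1, 0]) (by decide)
  have hb := absVec_root hΔ (u := ![0, 1]) (by decide)
  have hc := absVec_root hΔ (u := ![1, 1]) (by decide)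
  have hab : a - b ≠ 0 := sub_ne_zero.mpr fun e =>
    absurd (absVec_injective hΔ (by decide) (by decide) e) (by decide)
  have hbc : b - c ≠ 0 := sub_ne_zero.mpr fun e =>
    absurd (absVec_injective hΔ (by decide) (by decide) e) (by decide)
  have hca : c - a ≠ 0 := sub_ne_zero.mpr fun e =>
    absurd (absVec_injective hΔ (by decide) (by decide) e) (by decide)
  have e1 : 4 * (a ^ 2 + a * b + b ^ 2) + (W.b₂ : QBar) * (a + b) + 2 * (W.b₄ : QBar) = 0 := by
    refine (mul_eq_zero.mp ?_).resolve_left hab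
    linear_combination ha - hb
  have e2 : 4 * (b ^ 2 + b * c + c ^ 2) + (W.b₂ : QBar) * (b + c) + 2 * (W.b₄ : QBar) = 0 := by
    refine (mul_eq_zero.mp ?_).resolve_left hbc
    linear_combination hb - hc
  have e3 : 4 * (a + b + c) + (W.b₂ : QBar) = 0 := by
    refine (mul_eq_zero.mp ?_).resolve_left hca
    linear_combination e2 - e1
  have hb2 : (W.b₂ : QBar) = -4 * (a + b + c) := by linear_combination e3
  have hb4 : (W.b₄ : QBar) = 2 * (a * b + b * c + c * a) := by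
    rw [hb2] at e1
    linear_combination (1 / 2 : QBar) * e1
  have hb6 : (W.b₆ : QBar) = -4 * (a * b * c) := by
    rw [hb2, hb4] at ha
    linear_combination ha
  have hb8 : (W.b₈ : QBar) = ((W.b₂ : QBar) * W.b₆ - (W.b₄ : QBar) ^ 2) / 4 := by
    have h8 := congrArg (Int.cast : ℤ → QBar) W.b_relation
    push_cast at h8
    linear_combination (1 / 4 : QBar) * h8
  rw [WeierstrassCurve.Δ]
  push_cast
  rw [hb8, hb2, hb4, hb6, rootDelta]
  ring

/-- The sign of a permutation of the three points. -/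
theorem map_rootDelta (g : GQ) :
    (resMat W hΔ g * Deform.w₀ = Deform.w₀ * resMat W hΔ g →
        g (rootDelta W hΔ) = rootDelta W hΔ) ∧
      (resMat W hΔ g * Deform.w₀ ≠ Deform.w₀ * resMat W hΔ g →
        g (rootDelta W hΔ) = -rootDelta W hΔ) := by
  have hdet : IsUnit (resMat W hΔ g).det :=
    (Matrix.isUnit_iff_isUnit_det _).mp (resRep W hΔ g).isUnit
  have key : ∀ M : M2 (ZMod 2), IsUnit M.det →
      (M * Deform.w₀ = Deform.w₀ * M ∧
          ((M *ᵥ ![1, 0] = ![1, 0] ∧ M *ᵥ ![0, 1] = ![0, 1] ∧ M *ᵥ ![1, 1] = ![1, 1]) ∨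
            (M *ᵥ ![1, 0] = ![0, 1] ∧ M *ᵥ ![0, 1] = ![1, 1] ∧ M *ᵥ ![1, 1] = ![1, 0]) ∨
            (M *ᵥ ![1, 0] = ![1, 1] ∧ M *ᵥ ![0, 1] = ![1, 0] ∧ M *ᵥ ![1, 1] = ![0, 1]))) ∨
        (M * Deform.w₀ ≠ Deform.w₀ * M ∧
          ((M *ᵥ ![1, 0] = ![0, 1] ∧ M *ᵥ ![0, 1] = ![1, 0] ∧ M *ᵥ ![1, 1] = ![1, 1]) ∨
            (M *ᵥ ![1, 0] = ![1, 0] ∧ M *ᵥ ![0, 1] = ![1, 1] ∧ M *ᵥ ![1, 1] = ![0, 1]) ∨
            (M *ᵥ ![1, 0] = ![1, 1] ∧ M *ᵥ ![0, 1] = ![0, 1] ∧ M *ᵥ ![1, 1] = ![1, 0]))) := by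
    decide
  rw [rootDelta, map_mul, map_mul, map_sub, map_sub, map_sub, map_absVec, map_absVec, map_absVec]
  rcases key _ hdet with ⟨hc, h⟩ | ⟨hc, h⟩
  · refine ⟨fun _ => ?_, fun hn => absurd hc hn⟩
    rcases h with ⟨h1, h2, h3⟩ | ⟨h1, h2, h3⟩ | ⟨h1, h2, h3⟩ <;> rw [h1, h2, h3] <;> ring
  · refine ⟨fun hn => absurd hn hc, fun _ => ?_⟩
    rcases h with ⟨h1, h2, h3⟩ | ⟨h1, h2, h3⟩ | ⟨h1, h2, h3⟩ <;> rw [h1, h2, h3] <;> ring

end Fermat.Agent.LT.Curve
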